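import Fermat.Agent.ChebyshevSquares.Valuation
import Fermat.Agent.Root.SummaryLandauSquares
import Fermat.Agent.Root.SummaryPrimeNumberTheorem

/-!
# Chebyshev's theorem on `n ^ 2 + 1`

The primes up to `A x` give at most `x log x + O (x)` to the logarithm of the product of the
`n ^ 2 + 1`, `n ≤ x`, which is at least `2 x log x - 2 x`.
-/

set_option autoImplicit false

noncomputable section

open Finset Filter
open scoped Topology Nat.Prime

namespace FA.ChebyshevSquares

/-- The part of `log (prodSq x)` from the primes up to `B`. -/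
def smallLog (x B : ℕ) : ℝ :=
  ∑ p ∈ (prodSq x).primeFactors.filter (fun p => p ≤ B),
    ((prodSq x).factorization p : ℝ) * Real.log p

theorem exists_smallLog_le : ∃ C : ℝ, ∀ x B : ℕ, 1 ≤ B →
    smallLog x B ≤ x * Real.log B + C * x + 2 * (π B : ℝ) * Real.log ((x : ℝ) ^ 2 + 1) := by
  classical
  obtain ⟨C, hC⟩ := LandauSquares.Summary.mertens_mod_four 1 (Or.inl rfl)
  have hsum : Summable fun q : ℕ => Real.log q / (q : ℝ) ^ 2 := by
    refine Summable.of_nonneg_of_le (fun q => div_nonneg (Real.log_natCast_nonneg q)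
      (by positivity)) (fun q => ?_)
      ((Real.summable_one_div_nat_rpow.2 (show (1 : ℝ) < 3 / 2 by norm_num)).mul_left 2)
    rcases Nat.eq_zero_or_pos q with rfl | hq
    · simp
    have h0 : (0 : ℝ) < q := Nat.cast_pos.2 hq
    have h1 := Real.log_le_rpow_div h0.le (show (0 : ℝ) < 1 / 2 by norm_num)
    rw [div_le_iff₀ (pow_pos h0 2)]
    refine h1.trans (le_of_eq ?_)
    rw [← Real.rpow_natCast (q : ℝ) 2, mul_assoc, div_mul_eq_mul_div, one_mul,
      ← Real.rpow_sub h0]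
    norm_num
    ring
  set S := ∑' q : ℕ, Real.log q / (q : ℝ) ^ 2
  refine ⟨1 + 2 * C + 4 * S, fun x B hB => ?_⟩
  set T := (prodSq x).primeFactors.filter (fun p => p ≤ B)
  set T' := T.filter (fun p => p ≠ 2)
  have hT' : T' ⊆ (Icc 1 B).filter (fun p => p.Prime ∧ p % 4 = 1) := by
    intro p hp
    obtain ⟨hp, h2⟩ := mem_filter.1 hp
    obtain ⟨hp, hpB⟩ := mem_filter.1 hp
    obtain ⟨hpr, hd, -⟩ := Nat.mem_primeFactors.1 hp
    obtain ⟨n, -, -, hn⟩ := exists_dvd_of_dvd_prodSq hpr hd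
    exact mem_filter.2 ⟨mem_Icc.2 ⟨hpr.one_le, hpB⟩, hpr, emod_four_eq_one hpr h2 hn⟩
  have hcard : (#T' : ℝ) ≤ π B := by
    refine Nat.cast_le.2 ?_
    rw [Nat.primeCounting, Nat.primeCounting', Nat.count_eq_card_filter_range]
    refine card_le_card fun p hp => ?_
    obtain ⟨hp, hpr, -⟩ := mem_filter.1 (hT' hp)
    exact mem_filter.2 ⟨mem_range.2 (Nat.lt_succ_of_le (mem_Icc.1 hp).2), hpr⟩
  have h1 : ∑ p ∈ T', Real.log p / p ≤ Real.log B / 2 + C := by
    refine le_trans (sum_le_sum_of_subset_of_nonneg hT' fun p _ _ => ?_) ?_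
    · exact div_nonneg (Real.log_natCast_nonneg p) (Nat.cast_nonneg p)
    · linarith [(abs_le.1 (hC B hB)).2]
  have h2 : ∑ p ∈ T', Real.log p / (p : ℝ) ^ 2 ≤ S :=
    hsum.sum_le_tsum _ fun q _ => div_nonneg (Real.log_natCast_nonneg q) (by positivity)
  have hlog : 0 ≤ Real.log ((x : ℝ) ^ 2 + 1) := Real.log_nonneg (by nlinarith)
  have hodd : ∑ p ∈ T', ((prodSq x).factorization p : ℝ) * Real.log p ≤
      2 * x * (Real.log B / 2 + C) + 4 * x * S + (π B : ℝ) * (2 * Real.log ((x : ℝ) ^ 2 + 1)) := by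
    refine (sum_le_sum fun p hp => factorization_mul_log_le (mem_filter.1 (hT' hp)).2.1
      (mem_filter.1 hp).2).trans ?_
    rw [sum_add_distrib, sum_add_distrib, ← mul_sum, ← mul_sum, sum_const, nsmul_eq_mul]
    exact add_le_add (add_le_add (mul_le_mul_of_nonneg_left h1 (by positivity))
      (mul_le_mul_of_nonneg_left h2 (by positivity)))
      (mul_le_mul_of_nonneg_right hcard (by linarith))
  have htwo : ∑ p ∈ T.filter (fun p => ¬p ≠ 2), ((prodSq x).factorization p : ℝ) * Real.log p ≤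
      (x : ℝ) := by
    refine (sum_le_sum_of_subset_of_nonneg (t := {2}) (fun p hp => ?_) fun p _ _ => ?_).trans ?_
    · simpa using (mem_filter.1 hp).2
    · exact mul_nonneg (Nat.cast_nonneg _) (Real.log_natCast_nonneg p)
    · rw [sum_singleton]
      push_cast
      calc ((prodSq x).factorization 2 : ℝ) * Real.log 2
          ≤ (x : ℝ) * 1 := mul_le_mul (Nat.cast_le.2 (factorization_two_le x))
            (Real.log_two_lt_d9.le.trans (by norm_num)) (Real.log_nonneg (by norm_num))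
            (Nat.cast_nonneg x)
        _ = x := mul_one _
  rw [smallLog, ← sum_filter_add_sum_filter_not T (fun p => p ≠ 2)]
  linarith

/-- **Chebyshev's theorem.** -/
theorem eventually_exists_large_prime (A : ℕ) :
    ∀ᶠ x : ℕ in atTop, ∃ n ≤ x, ∃ p : ℕ, p.Prime ∧ A * x < p ∧ p ∣ n ^ 2 + 1 := by
  obtain ⟨C, hC⟩ := exists_smallLog_le
  set A' := A + 1
  have hA1 : (1 : ℝ) ≤ A' := by exact_mod_cast Nat.succ_le_succ (Nat.zero_le A)
  have hpi : ∀ᶠ x : ℕ in atTop, (π (A' * x) : ℝ) * Real.log (A' * x : ℕ) ≤ 2 * (A' * x : ℕ) := by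
    have h := (PNT.Summary.prime_number_theorem.comp (tendsto_natCast_atTop_atTop (R := ℝ))).comp
      (tendsto_atTop_mono (fun x => Nat.le_mul_of_pos_left x (Nat.succ_pos A)) tendsto_id)
    filter_upwards [h.eventually_lt_const (show (1 : ℝ) < 2 by norm_num), eventually_gt_atTop 0]
      with x hx hx0
    simp only [Function.comp_apply, Nat.floor_natCast] at hx
    have hpos : (0 : ℝ) < (A' * x : ℕ) := Nat.cast_pos.2 (Nat.mul_pos (Nat.succ_pos A) hx0)
    rw [div_lt_iff₀ hpos] at hx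
    exact hx.le
  have hbig : ∀ᶠ x : ℕ in atTop, 2 + Real.log A' + C + 12 * A' < Real.log x :=
    (Real.tendsto_log_atTop.comp tendsto_natCast_atTop_atTop).eventually_gt_atTop _
  filter_upwards [hpi, hbig, eventually_ge_atTop 2] with x hpi hx hx2
  by_contra hcon
  push Not at hcon
  have hall : ∀ p ∈ (prodSq x).primeFactors, p ≤ A' * x := by
    intro p hp
    obtain ⟨hpr, hd, -⟩ := Nat.mem_primeFactors.1 hp
    obtain ⟨n, -, hn, hdn⟩ := exists_dvd_of_dvd_prodSq hpr hd
    refine le_trans ?_ (Nat.mul_le_mul_right x (Nat.le_succ A))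
    by_contra hlt
    exact hcon n hn p hpr (not_le.1 hlt) hdn
  have hlog : Real.log (prodSq x : ℕ) = smallLog x (A' * x) := by
    rw [Real.log_nat_eq_sum_factorization, smallLog, filter_true_of_mem hall, Finsupp.sum,
      Nat.support_factorization]
  have hB : 1 ≤ A' * x := Nat.mul_pos (Nat.succ_pos A) (by omega)
  have hup := hC x (A' * x) hB
  have hlow := log_prodSq_ge x (by omega)
  have hxR : (2 : ℝ) ≤ x := by exact_mod_cast hx2
  have hBlog : Real.log (A' * x : ℕ) = Real.log A' + Real.log x := by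
    push_cast
    exact Real.log_mul (by linarith) (by linarith)
  have hlA : 0 ≤ Real.log (A' : ℕ) := Real.log_natCast_nonneg _
  have hsq : Real.log ((x : ℝ) ^ 2 + 1) ≤ 3 * Real.log (A' * x : ℕ) := by
    calc Real.log ((x : ℝ) ^ 2 + 1) ≤ Real.log ((x : ℝ) ^ 3) :=
          Real.log_le_log (by positivity) (by nlinarith)
      _ = 3 * Real.log x := by rw [Real.log_pow]; norm_num
      _ ≤ _ := by rw [hBlog]; linarith
  have hpi2 : (π (A' * x) : ℝ) * Real.log ((x : ℝ) ^ 2 + 1) ≤ 6 * ((A' : ℝ) * x) := by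
    calc (π (A' * x) : ℝ) * Real.log ((x : ℝ) ^ 2 + 1)
        ≤ (π (A' * x) : ℝ) * (3 * Real.log (A' * x : ℕ)) :=
          mul_le_mul_of_nonneg_left hsq (Nat.cast_nonneg _)
      _ ≤ _ := by push_cast at hpi ⊢; linarith
  rw [hBlog] at hup
  nlinarith [mul_lt_mul_of_pos_left hx (show (0 : ℝ) < x by linarith)]

/-- Infinitely many `n` have a prime `p > A n` dividing `n ^ 2 + 1`. -/
theorem infinite_large_prime (A : ℕ) :
    {n : ℕ | ∃ p : ℕ, p.Prime ∧ A * n < p ∧ p ∣ n ^ 2 + 1}.Infinite := by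
  intro hfin
  obtain ⟨N, hN⟩ := hfin.bddAbove
  obtain ⟨x, ⟨n, hn, p, hp, hlt, hd⟩, hx⟩ :=
    ((eventually_exists_large_prime (A + 1)).and (eventually_gt_atTop ((N ^ 2 + 1)))).exists
  have hmem : n ∈ {n : ℕ | ∃ p : ℕ, p.Prime ∧ A * n < p ∧ p ∣ n ^ 2 + 1} :=
    ⟨p, hp, lt_of_le_of_lt (Nat.mul_le_mul (Nat.le_succ A) hn) hlt, hd⟩
  have h1 := Nat.le_of_dvd (Nat.succ_pos _) hd
  have h2 := Nat.pow_le_pow_left (hN hmem) 2
  have h3 : x ≤ (A + 1) * x := Nat.le_mul_of_pos_left x (Nat.succ_pos A)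
  omega

end FA.ChebyshevSquares

end
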