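import Fermat.Agent.ErdosKac.Mertens
import Mathlib.NumberTheory.LegendreSymbol.Basic

/-!
# The primes of the product of the `n ^ 2 + 1`
-/

set_option autoImplicit false

noncomputable section

open Finset

namespace FA.ChebyshevSquares

/-- The product of the `n ^ 2 + 1`, `1 ≤ n ≤ x`. -/
def prodSq (x : ℕ) : ℕ := ∏ n ∈ Icc 1 x, (n ^ 2 + 1)

theorem prodSq_ne_zero (x : ℕ) : prodSq x ≠ 0 :=
  Finset.prod_ne_zero_iff.2 fun _ _ => Nat.succ_ne_zero _

theorem exists_dvd_of_dvd_prodSq {p x : ℕ} (hp : p.Prime) (h : p ∣ prodSq x) :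
    ∃ n, 1 ≤ n ∧ n ≤ x ∧ p ∣ n ^ 2 + 1 := by
  obtain ⟨n, hn, hd⟩ := (Prime.dvd_finsetProd_iff hp.prime _).1 h
  exact ⟨n, (mem_Icc.1 hn).1, (mem_Icc.1 hn).2, hd⟩

theorem emod_four_eq_one {p n : ℕ} (hp : p.Prime) (h2 : p ≠ 2) (h : p ∣ n ^ 2 + 1) :
    p % 4 = 1 := by
  have : Fact p.Prime := ⟨hp⟩
  have h3 : p % 4 ≠ 3 := ZMod.exists_sq_eq_neg_one_iff.1 ⟨(n : ZMod p), by
    rw [← sq, eq_comm, eq_neg_iff_add_eq_zero]
    exact_mod_cast (ZMod.natCast_eq_zero_iff (n ^ 2 + 1) p).2 h⟩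
  have := hp.eq_one_or_self_of_dvd 2
  rcases Nat.even_or_odd p with he | ho
  · exact absurd (hp.even_iff.1 he) h2
  · have := Nat.odd_iff.1 ho
    omega

/-- A residue class meets `[1, x]` at most `x / m + 1` times. -/
theorem card_filter_class_le (x m r : ℕ) :
    #((Icc 1 x).filter fun n => n % m = r) ≤ x / m + 1 := by
  rw [← card_range (x / m + 1)]
  refine card_le_card_of_injOn (fun n => n / m) (fun n hn => mem_range.2 ?_) fun a ha b hb h => ?_
  · exact Nat.lt_succ_of_le (Nat.div_le_div_right (mem_Icc.1 (mem_filter.1 hn).1).2)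
  · have h1 := Nat.mod_add_div a m
    have h2 := Nat.mod_add_div b m
    rw [(mem_filter.1 ha).2, show a / m = b / m from h] at h1
    rw [(mem_filter.1 hb).2] at h2
    exact h1.symm.trans h2

/-- At most two roots modulo an odd prime power. -/
theorem card_roots_le {p k x : ℕ} (hp : p.Prime) (h2 : p ≠ 2) (hk : 1 ≤ k) :
    #((Icc 1 x).filter fun n => p ^ k ∣ n ^ 2 + 1) ≤ 2 * (x / p ^ k + 1) := by
  rcases ((Icc 1 x).filter fun n => p ^ k ∣ n ^ 2 + 1).eq_empty_or_nonempty with he | ⟨a, ha⟩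
  · simp [he]
  set m := p ^ k
  have hm : 0 < m := pow_pos hp.pos k
  have ha' := (mem_filter.1 ha).2
  have hsub : ((Icc 1 x).filter fun n => m ∣ n ^ 2 + 1) ⊆
      ((Icc 1 x).filter fun n => n % m = a % m) ∪
        ((Icc 1 x).filter fun n => n % m = (m - a % m) % m) := by
    intro n hn
    obtain ⟨hnI, hn⟩ := mem_filter.1 hn
    have hprod : (m : ℤ) ∣ ((n : ℤ) - a) * ((n : ℤ) + a) := by
      have h1 : (m : ℤ) ∣ (n : ℤ) ^ 2 + 1 := by exact_mod_cast hn
      have h2 : (m : ℤ) ∣ (a : ℤ) ^ 2 + 1 := by exact_mod_cast ha'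
      rw [show ((n : ℤ) - a) * ((n : ℤ) + a) = ((n : ℤ) ^ 2 + 1) - ((a : ℤ) ^ 2 + 1) by ring]
      exact dvd_sub h1 h2
    rw [mem_union, mem_filter, mem_filter]
    have hpZ : Prime (p : ℤ) := Nat.prime_iff_prime_int.1 hp
    by_cases hd : (p : ℤ) ∣ (n : ℤ) - a
    · have hna : ¬(p : ℤ) ∣ (n : ℤ) + a := by
        intro hd'
        have h2a : (p : ℤ) ∣ 2 * (a : ℤ) := by simpa [two_mul] using dvd_sub hd' hd
        rcases hpZ.dvd_or_dvd h2a with h | h
        · exact h2 ((Nat.prime_dvd_prime_iff_eq hp Nat.prime_two).1 (by exact_mod_cast h))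
        · have hpa : p ∣ a := by exact_mod_cast h
          have hpm : p ∣ a ^ 2 + 1 := (dvd_pow_self p (by omega)).trans ha'
          exact hp.one_lt.ne' (Nat.dvd_one.1
            ((Nat.dvd_add_right (dvd_pow hpa two_ne_zero)).1 hpm))
      have hco : IsCoprime (m : ℤ) ((n : ℤ) + a) := by
        push_cast [m]
        exact ((hpZ.coprime_iff_not_dvd).2 hna).pow_left
      refine Or.inl ⟨hnI, ?_⟩
      exact (Nat.modEq_iff_dvd.2 (hco.dvd_of_dvd_mul_right hprod)).symm
    · have hco : IsCoprime (m : ℤ) ((n : ℤ) - a) := by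
        push_cast [m]
        exact ((hpZ.coprime_iff_not_dvd).2 hd).pow_left
      refine Or.inr ⟨hnI, ?_⟩
      have hlt := (Nat.mod_lt a hm).le
      refine (Nat.modEq_iff_dvd.2 ?_).symm
      have h3 := hco.dvd_of_dvd_mul_left hprod
      rw [Nat.cast_sub hlt, Int.natCast_emod]
      have e : (n : ℤ) - ((m : ℤ) - (a : ℤ) % m) = ((n : ℤ) + a) - m * (1 + (a : ℤ) / m) := by
        linear_combination (Int.emod_add_mul_ediv (a : ℤ) m)
      rw [e]
      exact dvd_sub h3 (dvd_mul_right _ _)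
  refine (card_le_card hsub).trans ((card_union_le _ _).trans ?_)
  have := card_filter_class_le x m (a % m)
  have := card_filter_class_le x m ((m - a % m) % m)
  omega

theorem factorization_le_card {p K N : ℕ} (hp : p.Prime) (hN : N ≠ 0) (hK : N < p ^ (K + 1)) :
    N.factorization p ≤ #((Icc 1 K).filter fun k => p ^ k ∣ N) := by
  have hle : N.factorization p ≤ K := by
    by_contra hlt
    exact absurd (Nat.le_of_dvd (Nat.pos_of_ne_zero hN)
      ((hp.pow_dvd_iff_le_factorization hN).2 (not_le.1 hlt))) hK.not_ge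
  calc N.factorization p = #(Icc 1 (N.factorization p)) := by simp
    _ ≤ _ := card_le_card fun k hk => by
      obtain ⟨h1, h2⟩ := mem_Icc.1 hk
      exact mem_filter.2 ⟨mem_Icc.2 ⟨h1, h2.trans hle⟩,
        (hp.pow_dvd_iff_le_factorization hN).2 h2⟩

theorem factorization_prodSq (x p : ℕ) :
    (prodSq x).factorization p = ∑ n ∈ Icc 1 x, (n ^ 2 + 1).factorization p := by
  rw [prodSq, Nat.factorization_prod fun n _ => Nat.succ_ne_zero _, Finsupp.finsetSum_apply]

/-- The exponent of `2`. -/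
theorem factorization_two_le (x : ℕ) : (prodSq x).factorization 2 ≤ x := by
  rw [factorization_prodSq]
  calc _ ≤ ∑ _n ∈ Icc 1 x, 1 := sum_le_sum fun n _ => by
        by_contra hlt
        have h4 : 2 ^ 2 ∣ n ^ 2 + 1 :=
          (Nat.prime_two.pow_dvd_iff_le_factorization (Nat.succ_ne_zero _)).2 (not_le.1 hlt)
        obtain ⟨k, rfl | rfl⟩ := Nat.even_or_odd' n <;> ring_nf at h4 <;> omega
    _ = x := by simp

/-- The contribution of an odd prime. -/
theorem factorization_mul_log_le {p x : ℕ} (hp : p.Prime) (h2 : p ≠ 2) :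
    ((prodSq x).factorization p : ℝ) * Real.log p ≤
      2 * x * (Real.log p / p) + 4 * x * (Real.log p / (p : ℝ) ^ 2) +
        2 * Real.log ((x : ℝ) ^ 2 + 1) := by
  set K := Nat.log p (x ^ 2 + 1) with hK
  have hlog0 : 0 ≤ Real.log p := Real.log_natCast_nonneg p
  have hcount : (prodSq x).factorization p ≤ ∑ k ∈ Icc 1 K, 2 * (x / p ^ k + 1) := by
    rw [factorization_prodSq]
    calc _ ≤ ∑ n ∈ Icc 1 x, #((Icc 1 K).filter fun k => p ^ k ∣ n ^ 2 + 1) :=
          sum_le_sum fun n hn => factorization_le_card hp (Nat.succ_ne_zero _)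
            (lt_of_le_of_lt (Nat.succ_le_succ (Nat.pow_le_pow_left (mem_Icc.1 hn).2 2))
              (Nat.lt_pow_succ_log_self hp.one_lt _))
      _ = ∑ k ∈ Icc 1 K, #((Icc 1 x).filter fun n => p ^ k ∣ n ^ 2 + 1) := by
          simp only [card_filter]
          exact sum_comm
      _ ≤ _ := sum_le_sum fun k hk => card_roots_le hp h2 (mem_Icc.1 hk).1
  have hKlog : (K : ℝ) * Real.log p ≤ Real.log ((x : ℝ) ^ 2 + 1) := by
    rw [← Real.log_pow]
    refine Real.log_le_log (pow_pos (by exact_mod_cast hp.pos) K) ?_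
    exact_mod_cast Nat.pow_log_le_self p (Nat.succ_ne_zero (x ^ 2))
  have hgeo : ∑ k ∈ Icc 1 K, Real.log p / (p : ℝ) ^ k ≤
      Real.log p / p + 2 * (Real.log p / (p : ℝ) ^ 2) := by
    rcases Nat.eq_zero_or_pos K with h0 | h0
    · rw [h0]
      simp only [Icc_eq_empty_of_lt zero_lt_one, sum_empty]
      positivity
    · rw [← add_sum_Ioc_eq_sum_Icc h0, pow_one, ← Icc_add_one_left_eq_Ioc]
      exact add_le_add le_rfl (ErdosKac.log_div_le hp.two_le K)
  calc ((prodSq x).factorization p : ℝ) * Real.log p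
      ≤ (∑ k ∈ Icc 1 K, (2 * ((x : ℝ) / (p : ℝ) ^ k + 1))) * Real.log p := by
        refine mul_le_mul_of_nonneg_right ((Nat.cast_le.2 hcount).trans ?_) hlog0
        push_cast
        refine sum_le_sum fun k _ => ?_
        have h := Nat.cast_div_le (α := ℝ) (m := x) (n := p ^ k)
        push_cast at h
        linarith
    _ = 2 * (x : ℝ) * ∑ k ∈ Icc 1 K, Real.log p / (p : ℝ) ^ k + 2 * ((K : ℝ) * Real.log p) := by
        rw [← mul_sum, sum_add_distrib, sum_const, Nat.card_Icc, Nat.add_sub_cancel, nsmul_one,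
          mul_add, add_mul, mul_assoc 2 (K : ℝ), mul_assoc 2 (∑ k ∈ Icc 1 K, (x : ℝ) / _),
          sum_mul, mul_sum, mul_sum]
        congr 1
        exact sum_congr rfl fun k _ => by ring
    _ ≤ _ := by
        have h := mul_le_mul_of_nonneg_left hgeo (show (0 : ℝ) ≤ 2 * x by positivity)
        linarith

theorem log_prodSq_ge (x : ℕ) (hx : 1 ≤ x) :
    2 * (x * Real.log x) - 2 * x ≤ Real.log (prodSq x : ℕ) := by
  have h1 : ((x ^ x : ℕ) : ℝ) ≤ Real.exp x * x.factorial := by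
    push_cast
    rw [← div_le_iff₀ (by positivity)]
    exact Real.pow_div_factorial_le_exp (x : ℝ) (Nat.cast_nonneg x) x
  have h2 := Real.log_le_log (by positivity) h1
  push_cast at h2
  rw [Real.log_pow, Real.log_mul (Real.exp_pos _).ne' (by positivity), Real.log_exp] at h2
  have h3 : x.factorial ^ 2 ≤ prodSq x := by
    rw [prodSq]
    calc x.factorial ^ 2 = ∏ n ∈ Icc 1 x, n ^ 2 := by
          rw [prod_pow, ← Ico_succ_right_eq_Icc, Order.succ_eq_add_one, prod_Ico_id_eq_factorial]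
      _ ≤ _ := prod_le_prod' fun n _ => Nat.le_succ _
  have h4 := Real.log_le_log (show (0 : ℝ) < ((x.factorial ^ 2 : ℕ) : ℝ) by positivity)
    (Nat.cast_le.2 h3)
  push_cast at h4
  rw [Real.log_pow] at h4
  push_cast at h4
  linarith

end FA.ChebyshevSquares

end
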